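import Fermat.Agent.LT.T6.H438.HasseQ3

/-!
# T6.00q.6 `LocalCC438` (cut of helper438): from "unit part `≡ 1 mod 3`" to the product-formula
form `Lam3_438` (helper219).  Elementary, Mathlib only.
-/

set_option autoImplicit false

namespace Fermat.Agent.LT.T6.H219

open Fermat.Agent.LT.T6.H438

/-- `S n = ∑_{p ≡ 2 mod 3} v_p(n)`. -/
noncomputable def sTwo219 (n : ℕ) : ℕ :=
  n.factorization.sum (fun p k => if p % 3 = 2 then k else 0)

theorem sTwo219_mul {a b : ℕ} (ha : a ≠ 0) (hb : b ≠ 0) :
    sTwo219 (a * b) = sTwo219 a + sTwo219 b := by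
  unfold sTwo219
  rw [Nat.factorization_mul ha hb]
  apply Finsupp.sum_add_index'
  · intro p; split_ifs <;> rfl
  · intro p k₁ k₂; split_ifs <;> simp

theorem sTwo219_prime {p : ℕ} (hp : p.Prime) : sTwo219 p = if p % 3 = 2 then 1 else 0 := by
  unfold sTwo219
  rw [hp.factorization, Finsupp.sum_single_index]
  split_ifs <;> rfl

theorem sTwo219_one : sTwo219 1 = 0 := by
  simp [sTwo219]

/-- Product formula at `3`: `n ≡ (-1)^{S n} mod 3` for `n` prime to `3`. -/
theorem natCast_zmod3_eq219 : ∀ n : ℕ, n ≠ 0 → ¬ 3 ∣ n → (n : ZMod 3) = (-1) ^ sTwo219 n := by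
  intro n
  induction n using induction_on_primes with
  | zero => intro h; exact absurd rfl h
  | one => intro _ _; simp [sTwo219_one]
  | prime_mul p a hp ih =>
    intro hn h3
    have hp0 : p ≠ 0 := hp.ne_zero
    have ha0 : a ≠ 0 := fun h => hn (by rw [h, mul_zero])
    have h3a : ¬ 3 ∣ a := fun h => h3 (dvd_mul_of_dvd_right h p)
    have h3p : ¬ 3 ∣ p := fun h => h3 (dvd_mul_of_dvd_left h a)
    rw [Nat.cast_mul, ih ha0 h3a, sTwo219_mul hp0 ha0, sTwo219_prime hp, pow_add]
    congr 1
    have hpm : p % 3 = 1 ∨ p % 3 = 2 := by omega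
    rcases hpm with h | h
    · have : (p : ZMod 3) = ((1 : ℕ) : ZMod 3) := by
        rw [ZMod.natCast_eq_natCast_iff]; exact h
      rw [this, if_neg (by omega)]
      simp
    · have : (p : ZMod 3) = ((2 : ℕ) : ZMod 3) := by
        rw [ZMod.natCast_eq_natCast_iff]; exact h
      rw [this, if_pos h]
      decide

theorem neg_one_pow_zmod3_219 (k : ℕ) : ((-1 : ZMod 3) ^ k = 1 ↔ Even k) := by
  rcases Nat.even_or_odd k with h | h
  · simp [h, h.neg_one_pow]
  · rw [h.neg_one_pow]
    constructor
    · intro h'; exact absurd h' (by decide)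
    · intro h'; exact absurd h (Nat.not_odd_iff_even.mpr h')

/-- Parity of `S n` and the number of primes `≡ 2 mod 3` with odd exponent. -/
theorem even_sTwo219_iff (n : ℕ) :
    Even (sTwo219 n) ↔
      Even (Finset.card (n.primeFactors.filter
        (fun p => p % 3 = 2 ∧ Odd (n.factorization p)))) := by
  unfold sTwo219
  rw [Finsupp.sum, Nat.support_factorization, Finset.even_sum_iff_even_card_odd]
  have : (n.primeFactors.filter fun p => Odd (if p % 3 = 2 then n.factorization p else 0))
      = n.primeFactors.filter (fun p => p % 3 = 2 ∧ Odd (n.factorization p)) := by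
    apply Finset.filter_congr
    intro p _
    split_ifs with h
    · simp [h]
    · simp [h]
  rw [this]

/-- **From the unit part to `Lam3_438`.** -/
theorem lam3_of_unit219 (c : ℚ) (hc : c ≠ 0) (t : ℚ) (ht : t ≠ 0) (k : ℕ) (z₀ : ℤ)
    (h : c * t ^ 2 = (3 : ℚ) ^ k * (z₀ : ℚ)) (hz : z₀ % 3 = 1) : Lam3_438 c := by
  have hz0 : z₀ ≠ 0 := by rintro rfl; simp at hz
  have h3z : ¬ (3 : ℤ) ∣ z₀ := by omega
  set n := z₀.natAbs with hn
  have hn0 : n ≠ 0 := Int.natAbs_ne_zero.mpr hz0
  have h3n : ¬ 3 ∣ n := by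
    intro h3
    apply h3z
    exact Int.natCast_dvd.mpr h3
  -- valuations
  have hval : ∀ p : ℕ, p.Prime → p % 3 = 2 →
      (Odd (padicValRat p c) ↔ Odd (n.factorization p)) := by
    intro p hp hp3
    have : Fact p.Prime := ⟨hp⟩
    have e1 : padicValRat p (c * t ^ 2) = padicValRat p c + 2 * padicValRat p t := by
      rw [padicValRat.mul hc (pow_ne_zero _ ht), padicValRat.pow t]
      push_cast; ring
    have e2 : padicValRat p ((3 : ℚ) ^ k * (z₀ : ℚ)) = padicValInt p z₀ := by
      rw [padicValRat.mul (by positivity) (by exact_mod_cast hz0), padicValRat.pow (3 : ℚ)]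
      have h3 : padicValRat p (3 : ℚ) = 0 := by
        have : padicValRat p ((3 : ℕ) : ℚ) = padicValNat p 3 := padicValRat.of_nat
        have h0 : padicValNat p 3 = 0 := by
          apply padicValNat.eq_zero_of_not_dvd
          intro hd
          have := (Nat.prime_dvd_prime_iff_eq hp Nat.prime_three).mp hd
          omega
        rw [h0] at this
        simpa using this
      rw [h3, padicValRat.of_int]
      simp
    have e3 : (padicValInt p z₀ : ℤ) = (n.factorization p : ℤ) := by
      rw [Nat.factorization_def n hp]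
      rfl
    rw [h, e2, e3] at e1
    constructor
    · intro ho
      have : Odd ((n.factorization p : ℤ)) := by
        rw [e1]
        exact ho.add_even (even_two_mul _)
      exact_mod_cast this
    · intro ho
      have ho' : Odd ((n.factorization p : ℤ)) := by exact_mod_cast ho
      rw [e1] at ho'
      rcases Int.even_or_odd (padicValRat p c) with he | ho2
      · exact absurd (he.add (even_two_mul _)) (Int.not_even_iff_odd.mpr ho')
      · exact ho2
  refine ⟨n.primeFactors.filter (fun p => p % 3 = 2 ∧ Odd (n.factorization p)), ?_, ?_⟩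
  · intro p
    rw [Finset.mem_filter, Nat.mem_primeFactors]
    constructor
    · rintro ⟨⟨hp, -, -⟩, hp3, ho⟩
      exact ⟨hp, hp3, (hval p hp hp3).mpr ho⟩
    · rintro ⟨hp, hp3, ho⟩
      have ho' := (hval p hp hp3).mp ho
      refine ⟨⟨hp, ?_, hn0⟩, hp3, ho'⟩
      by_contra hnd
      rw [Nat.factorization_eq_zero_of_not_dvd hnd] at ho'
      exact absurd ho' (by decide)
  · rw [← even_sTwo219_iff, ← neg_one_pow_zmod3_219, ← natCast_zmod3_eq219 n hn0 h3n]
    have hsign : (0 < c ↔ 0 < z₀) := by
      have ht2 : (0 : ℚ) < t ^ 2 := by positivity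
      have h3k : (0 : ℚ) < (3 : ℚ) ^ k := by positivity
      constructor
      · intro hcpos
        have : (0 : ℚ) < (3 : ℚ) ^ k * (z₀ : ℚ) := by rw [← h]; positivity
        have := (mul_pos_iff_of_pos_left h3k).mp this
        exact_mod_cast this
      · intro hzpos
        have hz' : (0 : ℚ) < (z₀ : ℚ) := by exact_mod_cast hzpos
        have : 0 < c * t ^ 2 := by rw [h]; positivity
        exact (mul_pos_iff_of_pos_right ht2).mp this
    rw [hsign]
    have hz1 : ((z₀ : ℤ) : ZMod 3) = 1 := by
      have : ((z₀ : ℤ) : ZMod 3) = ((1 : ℤ) : ZMod 3) := by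
        rw [ZMod.intCast_eq_intCast_iff]
        unfold Int.ModEq
        omega
      simpa using this
    constructor
    · intro hpos
      have : (n : ℤ) = z₀ := by rw [hn]; exact Int.natAbs_of_nonneg hpos.le
      have h2 : ((n : ℤ) : ZMod 3) = 1 := by rw [this, hz1]
      simpa using h2
    · intro h1
      by_contra hneg
      have hneg' : z₀ < 0 := lt_of_le_of_ne (not_lt.mp hneg) hz0
      have : (n : ℤ) = -z₀ := by rw [hn]; exact Int.ofNat_natAbs_of_nonpos hneg'.le
      have h2 : ((n : ℤ) : ZMod 3) = -1 := by rw [this]; push_cast; rw [hz1]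
      have h3 : ((n : ℕ) : ZMod 3) = -1 := by simpa using h2
      rw [h1] at h3
      exact absurd h3 (by decide)

end Fermat.Agent.LT.T6.H219
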