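import Fermat.Agent.LT.T6.H219.LocalC1
import Fermat.Agent.LT.T6.H219.Lam3

/-!
# T6.00q.6 `LocalCC438` VERBATIM (cut of helper438, `HasseQ3.lean` sha256 7b061f61) — helper219

`c ∈ ℚ^×` a local norm everywhere from `M = L(√-3)` over `L = ℚ(√d)` ⟹ `RatCond438 d c`.
Mathlib + byte-identical copy of `H438/HasseQ3.lean`.
-/

set_option autoImplicit false

namespace Fermat.Agent.LT.T6.H219

open IsDedekindDomain HeightOneSpectrum WithZero NumberField Fermat.Agent.LT.T6.H438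

variable {L M : Type} [Field L] [NumberField L] [Field M] [NumberField M] [Algebra L M]

theorem splits_three219 (d : ℤ) (hd3 : d % 3 = 1) : Splits438 d 3 := by
  right
  refine ⟨by norm_num, ?_, ?_⟩
  · intro h
    have : (3 : ℤ) ∣ d := by exact_mod_cast h
    omega
  · refine ⟨1, ?_⟩
    have : ((d : ℤ) : ZMod 3) = ((1 : ℤ) : ZMod 3) := by
      rw [ZMod.intCast_eq_intCast_iff]
      unfold Int.ModEq
      omega
    rw [this]
    simp

/-- **LOCAL-C at `3`.** -/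
theorem localC_atThree219 (hp : IsQ3Pair438 L M) (d : ℤ) (δ : L) (hd : Squarefree d)
    (hd1 : d ≠ 1) (hδ : δ ^ 2 = (d : L)) (c : ℚ) (hc : c ≠ 0)
    (hfin : IsLocNormFin438 L M (algebraMap ℚ L c)) (hd3 : d % 3 = 1) : Lam3_438 c := by
  have : Fact (Nat.Prime 3) := ⟨Nat.prime_three⟩
  obtain ⟨ψ⟩ := exists_padic_embedding219 hp d δ hd hd1 hδ 3 (splits_three219 d hd3)
  set v := placeOf219 (ψ : L →+* ℚ_[3]) with hv
  obtain ⟨a, b, hab⟩ := n3_of_locNormFin219 hp _ hfin v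
  have h3 : v.valuation L (3 : L) = exp (-1 : ℤ) := by
    have := valuation_natCast219 (ψ : L →+* ℚ_[3]) 3 (by norm_num)
    rw [padicValNat_self] at this
    simpa using this
  -- the integer `N = num * den`
  set N : ℤ := c.num * c.den with hN
  have hN0 : N ≠ 0 := mul_ne_zero (Rat.num_ne_zero.mpr hc) (by exact_mod_cast c.den_nz)
  have hfinN : FiniteMultiplicity (3 : ℤ) N := by
    rw [Int.finiteMultiplicity_iff]
    exact ⟨by norm_num, hN0⟩
  obtain ⟨z₀, hz₀, h3z⟩ := hfinN.exists_eq_pow_mul_and_not_dvd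
  set k := multiplicity (3 : ℤ) N with hk
  have hq : c * (c.den : ℚ) ^ 2 = (3 : ℚ) ^ k * (z₀ : ℚ) := by
    have h1 : c * (c.den : ℚ) ^ 2 = ((N : ℤ) : ℚ) := by
      rw [hN]
      push_cast
      rw [← Rat.mul_den_eq_num c]
      ring
    rw [h1, hz₀]
    push_cast
    ring
  let f : ℚ →+* v.adicCompletion L := (algebraMap L (v.adicCompletion L)).comp (algebraMap ℚ L)
  have hab' : a ^ 2 + 3 * b ^ 2 = f c := hab
  have hK : (a * f (c.den : ℚ)) ^ 2 + 3 * (b * f (c.den : ℚ)) ^ 2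
      = (3 : v.adicCompletion L) ^ k * (z₀ : v.adicCompletion L) := by
    have : (a * f (c.den : ℚ)) ^ 2 + 3 * (b * f (c.den : ℚ)) ^ 2
        = f (c * (c.den : ℚ) ^ 2) := by
      rw [map_mul, map_pow, ← hab']
      ring
    rw [this, hq, map_mul, map_pow, map_ofNat, map_intCast]
  have hz1 : z₀ % 3 = 1 :=
    q4_219 v h3 (toZModP219 (ψ : L →+* ℚ_[3])) (mem_placeOf219 (ψ : L →+* ℚ_[3])) k _ _ z₀ h3z hK
  exact lam3_of_unit219 c hc (c.den : ℚ) (by exact_mod_cast c.den_nz) k z₀ hq hz1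

/-- **T6.00q.6 `LocalCC438`, VERBATIM.** -/
theorem localCC219 : LocalCC438 := by
  intro L M _ _ _ _ _ hp d δ hdsf hd1 hδ c hc hfin hinf
  exact ⟨localC_atInf219 hp d δ hdsf hd1 hδ c hc hinf,
    fun p hpp hp3 hodd => localC_atInert219 hp d δ hdsf hd1 hδ c hc hfin p hpp hp3 hodd,
    localC_atThree219 hp d δ hdsf hd1 hδ c hc hfin⟩

end Fermat.Agent.LT.T6.H219
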