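import Fermat.Agent.LT.T6.H219.SplitPlace

/-!
# T6.00b (HasseNormQ3, cut of helper438): tool Q3, the sign at a real place (helper219)

`L = ℚ(δ)`, `δ² = d > 0`: there is a real place `u` of `L`; if `c ∈ ℚ`, `c ≠ 0`, is of the
form `a² + 3 b²` in `u.Completion` then `c > 0`.  Mathlib only.
-/

set_option autoImplicit false

namespace Fermat.Agent.LT.T6.H219

open NumberField

/-- If `x ∈ ℚ` is `a² + 3b²` in the completion at a real place then `x ≥ 0`. -/
theorem nonneg_of_n3_real219 {L : Type} [Field L] [NumberField L] (u : InfinitePlace L)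
    (hu : u.IsReal) (c : ℚ) (a b : u.Completion)
    (h : a ^ 2 + 3 * b ^ 2 = algebraMap L u.Completion (algebraMap ℚ L c)) : 0 ≤ c := by
  let e : u.Completion →+* ℝ := InfinitePlace.Completion.extensionEmbeddingOfIsReal hu
  have h1 : e (algebraMap L u.Completion (algebraMap ℚ L c)) = (c : ℝ) :=
    eq_ratCast ((e.comp (algebraMap L u.Completion)).comp (algebraMap ℚ L)) c
  have h2 := congrArg e h
  rw [h1, map_add, map_mul, map_pow, map_pow, map_ofNat] at h2
  have : (0 : ℝ) ≤ (c : ℝ) := by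
    rw [← h2]; positivity
  exact_mod_cast this

/-- A real quadratic field has a real place. -/
theorem exists_real_place219 {L : Type} [Field L] [NumberField L]
    (hdeg : Module.finrank ℚ L = 2) (d : ℤ) (hd : Squarefree d) (hd1 : d ≠ 1) (δ : L)
    (hδ : δ ^ 2 = (d : L)) (hpos : 0 < d) : ∃ u : InfinitePlace L, u.IsReal := by
  have hρ : (Real.sqrt (d : ℝ)) ^ 2 = ((d : ℤ) : ℝ) :=
    Real.sq_sqrt (by exact_mod_cast hpos.le)
  obtain ⟨ψ⟩ := exists_algHom_of_sqrt219 hdeg d hd hd1 δ hδ ℝ (Real.sqrt (d : ℝ)) hρ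
  let φ : L →+* ℂ := Complex.ofRealHom.comp (ψ : L →+* ℝ)
  refine ⟨InfinitePlace.mk φ, ?_⟩
  rw [InfinitePlace.isReal_mk_iff, ComplexEmbedding.isReal_iff]
  ext x
  simp [φ, ComplexEmbedding.conjugate]

end Fermat.Agent.LT.T6.H219
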