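import Mathlib

/-!
# T6.00b (HasseNormQ3, cut of helper438): tool Q2, parity of the valuation of `a² + 3 b²`
(helper219)

`R` a Dedekind domain with fraction field `K`, `v` a height-one prime such that `X² - X + 1` has
no root in `R / v` (e.g. `#(R / v) ≡ 2 mod 3`, residue characteristic `2` INCLUDED).  If
`x ∈ K` is of the form `a² + 3 b²` in the completion `K_v`, then `v(x)` is a square in `ℤᵐ⁰`
(i.e. the additive valuation of `x` is even).  Mathlib only.
-/

set_option autoImplicit false

namespace Fermat.Agent.LT.T6.H219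

open IsDedekindDomain HeightOneSpectrum WithZero Topology

variable {R : Type*} [CommRing R] [IsDedekindDomain R] {K : Type*} [Field K] [Algebra R K]
  [IsFractionRing R K] (v : HeightOneSpectrum R)

/-- Every integral element of the completion is congruent to a global integer modulo the
maximal ideal. -/
theorem exists_int_approx219 (β : v.adicCompletion K) (hβ : Valued.v β ≤ 1) :
    ∃ r : R, Valued.v (β - algebraMap R (v.adicCompletion K) r) < 1 := by
  have hd := denseRange_algebraMap (K := K) v
  have hU : {y : v.adicCompletion K | Valued.v (y - β) < (1 : ℤᵐ⁰)} ∈ 𝓝 β := by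
    rw [Valued.mem_nhds]
    exact ⟨1, fun y hy => by simpa using hy⟩
  obtain ⟨_, hyU, ⟨y, rfl⟩⟩ := mem_closure_iff_nhds.mp (hd β) _ hU
  have hyU' : Valued.v (algebraMap K (v.adicCompletion K) y - β) < 1 := hyU
  have hy1 : v.valuation K y ≤ 1 := by
    rw [← valuedAdicCompletion_eq_valuation' v y]
    have : (algebraMap K (v.adicCompletion K) y) = (algebraMap K (v.adicCompletion K) y - β) + β := by
      ring
    change Valued.v (algebraMap K (v.adicCompletion K) y) ≤ 1
    rw [this]
    exact (Valuation.map_add _ _ _).trans (max_le hyU'.le hβ)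
  obtain ⟨r, hr⟩ := exists_valuation_sub_lt_of_integer v hy1 1
  refine ⟨r, ?_⟩
  have e : β - algebraMap R (v.adicCompletion K) r
      = (β - algebraMap K (v.adicCompletion K) y)
        + algebraMap K (v.adicCompletion K) (y - algebraMap R K r) := by
    rw [IsScalarTower.algebraMap_apply R K (v.adicCompletion K), map_sub]
    ring
  rw [e]
  apply Valuation.map_add_lt
  · rw [Valuation.map_sub_swap]; exact hyU'
  · change Valued.v ((y - algebraMap R K r : K) : v.adicCompletion K) < 1
    rw [valuedAdicCompletion_eq_valuation', Valuation.map_sub_swap]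
    simpa using hr

/-- If `X² - X + 1` has no root modulo `v`, then `β² - β + 1` is a unit for every integral `β`
of the completion. -/
theorem val_phi_one219 (hroot : ∀ r : R, r ^ 2 - r + 1 ∉ v.asIdeal)
    (β : v.adicCompletion K) (hβ : Valued.v β ≤ 1) :
    Valued.v (β ^ 2 - β + 1) = 1 := by
  obtain ⟨r, hr⟩ := exists_int_approx219 v β hβ
  set ρ : v.adicCompletion K := algebraMap R (v.adicCompletion K) r with hρ
  have hρ1 : Valued.v ρ ≤ 1 := by
    rw [hρ, IsScalarTower.algebraMap_apply R K (v.adicCompletion K)]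
    change Valued.v ((algebraMap R K r : K) : v.adicCompletion K) ≤ 1
    rw [valuedAdicCompletion_eq_valuation']
    exact valuation_le_one v r
  have h1 : Valued.v (ρ ^ 2 - ρ + 1) = 1 := by
    have : ρ ^ 2 - ρ + 1 = algebraMap R (v.adicCompletion K) (r ^ 2 - r + 1) := by
      rw [hρ]; simp
    rw [this, IsScalarTower.algebraMap_apply R K (v.adicCompletion K)]
    change Valued.v ((algebraMap R K (r ^ 2 - r + 1) : K) : v.adicCompletion K) = 1
    rw [valuedAdicCompletion_eq_valuation']
    exact (valuation_eq_one_iff_notMem v).mpr (hroot r)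
  have h2 : Valued.v ((β - ρ) * (β + ρ - 1)) < 1 := by
    rw [map_mul]
    have h3 : Valued.v (β + ρ - 1) ≤ 1 := by
      have : β + ρ - 1 = (β + ρ) + (-1) := by ring
      rw [this]
      refine (Valuation.map_add _ _ _).trans (max_le ?_ ?_)
      · exact (Valuation.map_add _ _ _).trans (max_le hβ hρ1)
      · simp
    calc Valued.v (β - ρ) * Valued.v (β + ρ - 1) ≤ Valued.v (β - ρ) * 1 := by
          gcongr
      _ = Valued.v (β - ρ) := mul_one _
      _ < 1 := hr
  have e : β ^ 2 - β + 1 = (ρ ^ 2 - ρ + 1) + (β - ρ) * (β + ρ - 1) := by ring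
  rw [e, Valuation.map_add_eq_of_lt_left _ (by rw [h1]; exact h2), h1]

/-- The valuation of `A² - A B + B²` is the square of `max (v A) (v B)`. -/
theorem val_phi_sq219 (hroot : ∀ r : R, r ^ 2 - r + 1 ∉ v.asIdeal)
    (A B : v.adicCompletion K) :
    ∃ γ : ℤᵐ⁰, Valued.v (A ^ 2 - A * B + B ^ 2) = γ ^ 2 := by
  rcases le_or_gt (Valued.v B) (Valued.v A) with h | h
  · by_cases hA : A = 0
    · subst hA
      have hB : B = 0 := by
        rw [map_zero, le_zero_iff] at h
        exact (Valuation.zero_iff _).mp h
      subst hB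
      exact ⟨0, by simp⟩
    · refine ⟨Valued.v A, ?_⟩
      have hβ : Valued.v (B / A) ≤ 1 := by
        rw [map_div₀]
        exact div_le_one_of_le₀ h zero_le
      have e : A ^ 2 - A * B + B ^ 2 = A ^ 2 * ((B / A) ^ 2 - (B / A) + 1) := by
        field_simp
        ring
      rw [e, map_mul, val_phi_one219 v hroot _ hβ, mul_one, map_pow]
  · have hB : B ≠ 0 := by
      rintro rfl
      simp at h
    refine ⟨Valued.v B, ?_⟩
    have hβ : Valued.v (A / B) ≤ 1 := by
      rw [map_div₀]
      exact div_le_one_of_le₀ h.le zero_le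
    have e : A ^ 2 - A * B + B ^ 2 = B ^ 2 * ((A / B) ^ 2 - (A / B) + 1) := by
      field_simp
    rw [e, map_mul, val_phi_one219 v hroot _ hβ, mul_one, map_pow]

/-- **Q2 (parity).**  If `X² - X + 1` has no root modulo `v` and `x = a² + 3 b²` in the
completion `K_v`, then `v(x)` is a square in the value group. -/
theorem val_sq_of_n3_219 (hroot : ∀ r : R, r ^ 2 - r + 1 ∉ v.asIdeal) (x : K)
    (a b : v.adicCompletion K)
    (h : a ^ 2 + 3 * b ^ 2 = algebraMap K (v.adicCompletion K) x) :
    ∃ γ : ℤᵐ⁰, v.valuation K x = γ ^ 2 := by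
  obtain ⟨γ, hγ⟩ := val_phi_sq219 v hroot (a + b) (2 * b)
  refine ⟨γ, ?_⟩
  rw [← hγ, ← valuedAdicCompletion_eq_valuation' v x]
  change Valued.v (algebraMap K (v.adicCompletion K) x) = _
  rw [← h]
  congr 1
  ring

end Fermat.Agent.LT.T6.H219
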