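import Fermat.Agent.LT.T6.H219.SplitPlace
import Fermat.Agent.LT.T6.H219.Parity

/-!
# T6.00b (HasseNormQ3, cut of helper438): valuations of rational numbers at a split place and
the parity statement at `p ≡ 2 mod 3` (helper219).  Mathlib only.
-/

set_option autoImplicit false

namespace Fermat.Agent.LT.T6.H219

open IsDedekindDomain HeightOneSpectrum WithZero NumberField

section place

variable {L : Type} [Field L] [NumberField L] {p : ℕ} [Fact p.Prime] (ψ : L →+* ℚ_[p])

theorem valuation_natCast219 (n : ℕ) (hn : n ≠ 0) :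
    (placeOf219 ψ).valuation L (n : L) = exp (-(padicValNat p n : ℤ)) := by
  have hp : Nat.Prime p := Fact.out
  induction n using Nat.recOnMul with
  | zero => exact absurd rfl hn
  | one => simp
  | prime q hq =>
    have e : ((q : ℕ) : L) = algebraMap (𝓞 L) L ((q : ℕ) : 𝓞 L) := by simp
    rw [e, valuation_of_algebraMap]
    by_cases hqp : q = p
    · subst hqp
      rw [intValuation_p219, padicValNat_self]
      rfl
    · have hnd : ¬ (p : ℤ) ∣ (q : ℤ) := by
        intro h
        have : p ∣ q := by exact_mod_cast h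
        exact hqp ((Nat.prime_dvd_prime_iff_eq hp hq).mp this).symm
      have h1 : ((q : ℕ) : 𝓞 L) ∉ (placeOf219 ψ).asIdeal := by
        have := intCast_notMem_placeOf219 ψ (q : ℤ) hnd
        simpa using this
      rw [(intValuation_eq_one_iff_mem_primeCompl _ _).mpr h1]
      have : padicValNat p q = 0 := by
        apply padicValNat.eq_zero_of_not_dvd
        intro h
        exact hqp ((Nat.prime_dvd_prime_iff_eq hp hq).mp h).symm
      rw [this]
      simp
  | mul a b ha hb =>
    have ha0 : a ≠ 0 := fun h => hn (by rw [h, zero_mul])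
    have hb0 : b ≠ 0 := fun h => hn (by rw [h, mul_zero])
    rw [Nat.cast_mul, map_mul, ha ha0, hb hb0, padicValNat.mul ha0 hb0, ← exp_add]
    congr 1
    push_cast
    ring

theorem valuation_intCast219 (z : ℤ) (hz : z ≠ 0) :
    (placeOf219 ψ).valuation L (z : L) = exp (-(padicValInt p z : ℤ)) := by
  have h := valuation_natCast219 ψ z.natAbs (Int.natAbs_ne_zero.mpr hz)
  have e : (placeOf219 ψ).valuation L (z : L) = (placeOf219 ψ).valuation L ((z.natAbs : ℕ) : L) := by
    rcases Int.natAbs_eq z with h1 | h1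
    · conv_lhs => rw [h1]
      simp
    · conv_lhs => rw [h1]
      rw [Int.cast_neg, Valuation.map_neg]
      simp
  rw [e, h]
  rfl

theorem valuation_ratCast219 (c : ℚ) (hc : c ≠ 0) :
    (placeOf219 ψ).valuation L (algebraMap ℚ L c) = exp (-(padicValRat p c)) := by
  have hnum : c.num ≠ 0 := Rat.num_ne_zero.mpr hc
  have hden : c.den ≠ 0 := c.den_nz
  have e : algebraMap ℚ L c = (c.num : L) / (c.den : L) := by
    conv_lhs => rw [← Rat.num_div_den c]
    simp
  rw [e, map_div₀, valuation_intCast219 ψ _ hnum, valuation_natCast219 ψ _ hden,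
    padicValRat_def, ← exp_sub]
  congr 1
  ring

end place

/-! ### `X² - X + 1` has no root modulo a prime `p ≡ 2 mod 3` -/

theorem zmod_no_root219 (p : ℕ) [Fact p.Prime] (hp3 : p % 3 = 2) (t : ZMod p) :
    t ^ 2 - t + 1 ≠ 0 := by
  intro h
  have hp : Nat.Prime p := Fact.out
  have h3 : (-t) ^ 3 = 1 := by
    have : (-t) ^ 3 - 1 = -(t + 1) * (t ^ 2 - t + 1) := by ring
    rw [h, mul_zero] at this
    exact sub_eq_zero.mp this
  have h1 : -t ≠ 1 := by
    intro h1
    have ht : t = -1 := by rw [← h1]; ring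
    rw [ht] at h
    have h30 : ((3 : ℕ) : ZMod p) = 0 := by
      have : ((-1 : ZMod p)) ^ 2 - (-1) + 1 = 3 := by ring
      rw [this] at h
      exact_mod_cast h
    rw [ZMod.natCast_eq_zero_iff] at h30
    have := (Nat.prime_dvd_prime_iff_eq hp Nat.prime_three).mp h30
    omega
  have ht0 : -t ≠ 0 := by
    intro h0
    rw [h0] at h3
    norm_num at h3
  have : Fact (Nat.Prime 3) := ⟨Nat.prime_three⟩
  have ho : orderOf (-t) = 3 := orderOf_eq_prime h3 h1
  have hd : orderOf (-t) ∣ p - 1 := orderOf_dvd_of_pow_eq_one (ZMod.pow_card_sub_one_eq_one ht0)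
  rw [ho] at hd
  have hp1 : 1 ≤ p := hp.one_lt.le
  omega

/-- **Parity at a split place over `p ≡ 2 mod 3`.** -/
theorem even_padicValRat_of_n3_219 {L : Type} [Field L] [NumberField L] {p : ℕ} [Fact p.Prime]
    (hp3 : p % 3 = 2) (ψ : L →+* ℚ_[p]) (c : ℚ) (hc : c ≠ 0)
    (a b : (placeOf219 ψ).adicCompletion L)
    (h : a ^ 2 + 3 * b ^ 2 = algebraMap L ((placeOf219 ψ).adicCompletion L) (algebraMap ℚ L c)) :
    Even (padicValRat p c) := by
  have hroot : ∀ r : 𝓞 L, r ^ 2 - r + 1 ∉ (placeOf219 ψ).asIdeal := by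
    intro r hr
    rw [mem_placeOf219] at hr
    apply zmod_no_root219 p hp3 (toZModP219 ψ r)
    rw [← hr]
    simp
  obtain ⟨γ, hγ⟩ := val_sq_of_n3_219 (placeOf219 ψ) hroot (algebraMap ℚ L c) a b h
  rw [valuation_ratCast219 ψ c hc] at hγ
  have hγ0 : γ ≠ 0 := by
    rintro rfl
    simp at hγ
  obtain ⟨j, rfl⟩ : ∃ j : ℤ, γ = exp j := ⟨_, (exp_log hγ0).symm⟩
  rw [← exp_nsmul, exp_inj] at hγ
  refine ⟨-j, ?_⟩
  simp at hγ
  omega

end Fermat.Agent.LT.T6.H219
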