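import Mathlib

/-!
# T6.00b (HasseNormQ3, cut of helper438): tool Q1, the norm form on `A ⊗_L M` (helper219)

`M = L(r)`, `r² = -3`, `[M : L] = 2`.  For every commutative `L`-algebra `A` and every
`y : A ⊗_L M` the norm `Algebra.norm A y` is of the form `a² + 3 b²` with `a, b : A`
(coordinates of `y` in the base-changed basis `{1, 1 ⊗ r}`).  Mathlib only.
-/

set_option autoImplicit false

namespace Fermat.Agent.LT.T6.H219

open TensorProduct

/-- `{1, r}` is linearly independent over `L` when `r ∉ L`. -/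
theorem linIndep_one_r219 {L M : Type} [Field L] [Field M] [Algebra L M]
    (r : M) (hrL : ∀ s : L, algebraMap L M s ≠ r) :
    LinearIndependent L ![(1 : M), r] := by
  rw [LinearIndependent.pair_iff]
  intro s t h
  have ht : t = 0 := by
    by_contra ht
    apply hrL (-(s / t))
    have h1 : t • r = -(s • (1 : M)) := by
      rw [eq_neg_iff_add_eq_zero, add_comm]; exact h
    have h2 : r = t⁻¹ • (t • r) := by rw [smul_smul, inv_mul_cancel₀ ht, one_smul]
    rw [h2, h1, Algebra.algebraMap_eq_smul_one, smul_neg, smul_smul, neg_smul]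
    congr 2
    field_simp
  subst ht
  refine ⟨?_, rfl⟩
  rw [zero_smul, add_zero] at h
  have := (smul_eq_zero.mp h)
  simpa using this

/-- The basis `{1, r}` of `M` over `L`. -/
noncomputable def basisOneR219 {L M : Type} [Field L] [Field M] [Algebra L M]
    (hdeg : Module.finrank L M = 2) (r : M) (hrL : ∀ s : L, algebraMap L M s ≠ r) :
    Module.Basis (Fin 2) L M :=
  basisOfLinearIndependentOfCardEqFinrank (linIndep_one_r219 r hrL) (by simp [hdeg])

theorem basisOneR219_zero {L M : Type} [Field L] [Field M] [Algebra L M]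
    (hdeg : Module.finrank L M = 2) (r : M) (hrL : ∀ s : L, algebraMap L M s ≠ r) :
    basisOneR219 hdeg r hrL 0 = 1 := by
  simp [basisOneR219]

theorem basisOneR219_one {L M : Type} [Field L] [Field M] [Algebra L M]
    (hdeg : Module.finrank L M = 2) (r : M) (hrL : ∀ s : L, algebraMap L M s ≠ r) :
    basisOneR219 hdeg r hrL 1 = r := by
  simp [basisOneR219]

/-- **Q1.**  The norm of any element of `A ⊗_L M` is a value of the form `a² + 3 b²`. -/
theorem norm_tensor_eq219 {L M : Type} [Field L] [Field M] [Algebra L M]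
    (hdeg : Module.finrank L M = 2) (r : M) (hr : r ^ 2 = -3)
    (hrL : ∀ s : L, algebraMap L M s ≠ r)
    (A : Type*) [CommRing A] [Algebra L A] (y : A ⊗[L] M) :
    ∃ a b : A, Algebra.norm A y = a ^ 2 + 3 * b ^ 2 := by
  classical
  set b := basisOneR219 hdeg r hrL with hb
  set B : Module.Basis (Fin 2) A (A ⊗[L] M) := Algebra.TensorProduct.basis A b with hB
  have hB0 : B 0 = 1 := by
    rw [hB, Algebra.TensorProduct.basis_apply, hb, basisOneR219_zero]
    rfl
  have hB1 : B 1 = (1 : A) ⊗ₜ[L] r := by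
    rw [hB, Algebra.TensorProduct.basis_apply, hb, basisOneR219_one]
  have hρ : ((1 : A) ⊗ₜ[L] r) * ((1 : A) ⊗ₜ[L] r) = -3 := by
    rw [Algebra.TensorProduct.tmul_mul_tmul, one_mul, ← pow_two, hr]
    have h := map_neg (Algebra.TensorProduct.includeRight : M →ₐ[L] A ⊗[L] M) (3 : M)
    rw [map_ofNat] at h
    exact h
  have h3 : (-3 : A ⊗[L] M) = (-3 : A) • (1 : A ⊗[L] M) := by
    rw [Algebra.smul_def, mul_one, map_neg, map_ofNat]
  refine ⟨B.repr y 0, B.repr y 1, ?_⟩
  have hy : y = B.repr y 0 • B 0 + B.repr y 1 • B 1 := by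
    have := B.sum_repr y
    rw [Fin.sum_univ_two] at this
    exact this.symm
  rw [Algebra.norm_eq_matrix_det B, Matrix.det_fin_two]
  simp only [Algebra.leftMulMatrix_eq_repr_mul]
  have e0 : y * B 0 = B.repr y 0 • B 0 + B.repr y 1 • B 1 := by
    rw [hB0, mul_one, ← hB0]; exact hy
  have e1 : y * B 1 = (-3 * B.repr y 1) • B 0 + B.repr y 0 • B 1 := by
    conv_lhs => rw [hy]
    rw [add_mul, smul_mul_assoc, smul_mul_assoc, hB0, one_mul, hB1, hρ, h3, smul_smul,
      add_comm, mul_comm]
  rw [e0, e1]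
  simp only [map_add, map_smul, Module.Basis.repr_self, Finsupp.add_apply, Finsupp.smul_apply,
    Finsupp.single_apply]
  simp
  ring

end Fermat.Agent.LT.T6.H219
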