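import Fermat.Agent.LT.T6.H219.SplitVal

/-!
# T6.00b (HasseNormQ3, cut of helper438): tool Q4, the condition at a split place over `3`
(helper219)

`v` a place of `L` over `3` with residue field `𝔽_3` and `v(3) = exp(-1)`.  If `3^k z₀ = a² + 3 b²` in `L_v` with `z₀ ∈ ℤ` prime to `3`,
then `z₀ ≡ 1 mod 3`.  Mathlib only.
-/

set_option autoImplicit false

namespace Fermat.Agent.LT.T6.H219

open IsDedekindDomain HeightOneSpectrum WithZero NumberField

section three

variable {L : Type} [Field L] [NumberField L] (v : HeightOneSpectrum (𝓞 L))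

theorem valued_intCast219 (z : ℤ) :
    Valued.v ((z : v.adicCompletion L)) = v.valuation L (z : L) := by
  have : ((z : v.adicCompletion L)) = algebraMap L (v.adicCompletion L) (z : L) := by simp
  rw [this]
  exact valuedAdicCompletion_eq_valuation' v (z : L)

theorem valued_three219 (h3 : v.valuation L (3 : L) = exp (-1 : ℤ)) :
    Valued.v ((3 : v.adicCompletion L)) = exp (-1 : ℤ) := by
  have h := valued_intCast219 v 3
  have e : ((3 : ℤ) : v.adicCompletion L) = 3 := by norm_num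
  have e' : ((3 : ℤ) : L) = 3 := by norm_num
  rw [e, e'] at h
  rw [h, h3]

theorem valued_unit219 (z₀ : ℤ) (hz : (z₀ : 𝓞 L) ∉ v.asIdeal) :
    Valued.v ((z₀ : v.adicCompletion L)) = 1 := by
  rw [valued_intCast219]
  have e : ((z₀ : ℤ) : L) = algebraMap (𝓞 L) L (z₀ : 𝓞 L) := by simp
  rw [e]
  exact (valuation_eq_one_iff_notMem _).mpr hz

theorem val_parity219 (h3 : v.valuation L (3 : L) = exp (-1 : ℤ))
    (a b : v.adicCompletion L) (ha : a ≠ 0) :
    Valued.v (3 * b ^ 2) ≠ Valued.v (a ^ 2) := by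
  intro h
  rw [map_mul, map_pow, map_pow, valued_three219 v h3] at h
  have ha0 : Valued.v a ≠ 0 := (Valuation.ne_zero_iff _).mpr ha
  have hb0 : Valued.v b ≠ 0 := by
    intro hb
    rw [hb] at h
    simp at h
    exact ha0 (pow_eq_zero_iff (n := 2) (by norm_num) |>.mp h.symm)
  obtain ⟨i, hi⟩ : ∃ i : ℤ, Valued.v a = exp i := ⟨_, (exp_log ha0).symm⟩
  obtain ⟨j, hj⟩ : ∃ j : ℤ, Valued.v b = exp j := ⟨_, (exp_log hb0).symm⟩
  rw [hi, hj, ← exp_nsmul, ← exp_nsmul, ← exp_add, exp_inj] at h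
  simp at h
  omega

theorem zmod3_sq219 (t : ZMod 3) (ht : t ≠ 0) : t ^ 2 = 1 := by
  revert t; decide

/-- Case `k = 0`. -/
theorem q4_zero219 (h3 : v.valuation L (3 : L) = exp (-1 : ℤ))
    (φ : 𝓞 L →+* ZMod 3) (hker : ∀ α : 𝓞 L, α ∈ v.asIdeal ↔ φ α = 0)
    (a b : v.adicCompletion L) (z₀ : ℤ) (hz : ¬ (3 : ℤ) ∣ z₀)
    (h : a ^ 2 + 3 * b ^ 2 = (z₀ : v.adicCompletion L)) : z₀ % 3 = 1 := by
  have hz0 : ((z₀ : ℤ) : ZMod 3) ≠ 0 := by
    rw [Ne, ZMod.intCast_zmod_eq_zero_iff_dvd]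
    exact_mod_cast hz
  have hzv : (z₀ : 𝓞 L) ∉ v.asIdeal := by
    rw [hker, map_intCast]; exact hz0
  have hz1 := valued_unit219 v z₀ hzv
  -- `v a ≤ 1`
  have ha1 : Valued.v a ≤ 1 := by
    by_contra hgt
    rw [not_le] at hgt
    have ha0 : a ≠ 0 := by
      rintro rfl
      simp at hgt
    have h2 : Valued.v (a ^ 2) > 1 := by
      rw [map_pow]
      exact one_lt_pow₀ hgt (by norm_num)
    have e : 3 * b ^ 2 = (z₀ : v.adicCompletion L) - a ^ 2 := by rw [← h]; ring
    apply val_parity219 v h3 a b ha0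
    rw [e, Valuation.map_sub_swap]
    exact Valuation.map_sub_eq_of_lt_left _ (by rw [hz1]; exact h2)
  have ha2 : Valued.v (a ^ 2) ≤ 1 := by
    rw [map_pow]; exact pow_le_one₀ zero_le ha1
  -- `v (3 b²) < 1`
  have hb1 : Valued.v (3 * b ^ 2) < 1 := by
    have e : 3 * b ^ 2 = (z₀ : v.adicCompletion L) - a ^ 2 := by rw [← h]; ring
    have hle : Valued.v (3 * b ^ 2) ≤ 1 := by
      rw [e]
      exact (Valuation.map_sub _ _ _).trans (max_le hz1.le ha2)
    rcases lt_or_eq_of_le hle with h1 | h1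
    · exact h1
    · exfalso
      have := val_parity219 v h3 (1 : v.adicCompletion L) b one_ne_zero
      apply this
      rw [h1]; simp
  -- approximate `a`
  obtain ⟨r, hr⟩ := exists_int_approx219 v a ha1
  set ρ : v.adicCompletion L := algebraMap (𝓞 L) (v.adicCompletion L) r with hρ
  have hρ1 : Valued.v ρ ≤ 1 := by
    rw [hρ, IsScalarTower.algebraMap_apply (𝓞 L) L (v.adicCompletion L)]
    change Valued.v ((algebraMap (𝓞 L) L r : L) : v.adicCompletion L) ≤ 1
    rw [valuedAdicCompletion_eq_valuation']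
    exact valuation_le_one _ r
  have h3' : Valued.v (a ^ 2 - ρ ^ 2) < 1 := by
    have : a ^ 2 - ρ ^ 2 = (a - ρ) * (a + ρ) := by ring
    rw [this, map_mul]
    calc Valued.v (a - ρ) * Valued.v (a + ρ) ≤ Valued.v (a - ρ) * 1 := by
          gcongr
          exact (Valuation.map_add _ _ _).trans (max_le ha1 hρ1)
      _ = Valued.v (a - ρ) := mul_one _
      _ < 1 := hr
  have h4 : Valued.v ((z₀ : v.adicCompletion L) - ρ ^ 2) < 1 := by
    have : (z₀ : v.adicCompletion L) - ρ ^ 2 = 3 * b ^ 2 + (a ^ 2 - ρ ^ 2) := by rw [← h]; ring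
    rw [this]
    exact Valuation.map_add_lt _ hb1 h3'
  have h5 : ((z₀ : 𝓞 L) - r ^ 2) ∈ v.asIdeal := by
    rw [← valuation_lt_one_iff_mem (K := L), ← valuedAdicCompletion_eq_valuation']
    have : ((algebraMap (𝓞 L) L ((z₀ : 𝓞 L) - r ^ 2) : L) : v.adicCompletion L)
        = (z₀ : v.adicCompletion L) - ρ ^ 2 := by
      rw [hρ, IsScalarTower.algebraMap_apply (𝓞 L) L (v.adicCompletion L)]
      change algebraMap L (v.adicCompletion L) (algebraMap (𝓞 L) L ((z₀ : 𝓞 L) - r ^ 2)) = _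
      simp
    rw [this]
    exact h4
  rw [hker, map_sub, map_intCast, map_pow, sub_eq_zero] at h5
  have hr0 : φ r ≠ 0 := by
    intro h0
    rw [h0] at h5
    simp at h5
    exact hz0 h5
  rw [zmod3_sq219 _ hr0] at h5
  have h6 : ((z₀ : ℤ) : ZMod 3) = ((1 : ℤ) : ZMod 3) := by rw [h5]; simp
  rw [ZMod.intCast_eq_intCast_iff] at h6
  have := h6
  unfold Int.ModEq at this
  omega

/-- **Q4.**  If `3^k z₀ = a² + 3b²` at a split place over `3` and `3 ∤ z₀`, then `z₀ ≡ 1 mod 3`. -/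
theorem q4_219 (h3 : v.valuation L (3 : L) = exp (-1 : ℤ))
    (φ : 𝓞 L →+* ZMod 3) (hker : ∀ α : 𝓞 L, α ∈ v.asIdeal ↔ φ α = 0) (k : ℕ) :
    ∀ (a b : v.adicCompletion L) (z₀ : ℤ), ¬ (3 : ℤ) ∣ z₀ →
    a ^ 2 + 3 * b ^ 2 = (3 : v.adicCompletion L) ^ k * (z₀ : v.adicCompletion L) →
      z₀ % 3 = 1 := by
  induction k with
  | zero =>
    intro a b z₀ hz h
    rw [pow_zero, one_mul] at h
    exact q4_zero219 v h3 φ hker a b z₀ hz h
  | succ k ih =>
    intro a b z₀ hz h
    apply ih b (a / 3) z₀ hz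
    have h30 : (3 : v.adicCompletion L) ≠ 0 := by
      intro h0
      have := valued_three219 v h3
      rw [h0, map_zero] at this
      exact exp_ne_zero this.symm
    have : b ^ 2 + 3 * (a / 3) ^ 2 = (a ^ 2 + 3 * b ^ 2) / 3 := by
      field_simp
      ring
    rw [this, h, pow_succ]
    field_simp

end three

end Fermat.Agent.LT.T6.H219
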