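import Fermat.Agent.LT.T6.H438.HasseQ3
import Fermat.Agent.LT.T6.H219.TensorNorm
import Fermat.Agent.LT.T6.H219.SplitVal
import Fermat.Agent.LT.T6.H219.RealPlace
import Fermat.Agent.LT.T6.H219.ThreeAdic

/-!
# T6.00q.6 `LocalCC438` (cut of helper438), part 1: the conditions at infinity and at the primes
`p ≡ 2 mod 3` (helper219, spare prover).
-/

set_option autoImplicit false

namespace Fermat.Agent.LT.T6.H219

open IsDedekindDomain HeightOneSpectrum WithZero NumberField Fermat.Agent.LT.T6.H438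

variable {L M : Type} [Field L] [NumberField L] [Field M] [NumberField M] [Algebra L M]

theorem exists_root219 (hp : IsQ3Pair438 L M) :
    ∃ r : M, r ^ 2 = -3 ∧ ∀ s : L, algebraMap L M s ≠ r := by
  obtain ⟨r, hr⟩ := hp.root
  refine ⟨r, hr, fun s hs => hp.noRoot s ?_⟩
  apply (algebraMap L M).injective
  rw [map_pow, hs, hr, map_neg, map_ofNat]

/-- the local hypothesis at a finite place in the form `a² + 3b²`. -/
theorem n3_of_locNormFin219 (hp : IsQ3Pair438 L M) (x : L) (h : IsLocNormFin438 L M x)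
    (v : HeightOneSpectrum (𝓞 L)) :
    ∃ a b : v.adicCompletion L, a ^ 2 + 3 * b ^ 2 = algebraMap L (v.adicCompletion L) x := by
  obtain ⟨r, hr, hrL⟩ := exists_root219 hp
  obtain ⟨y, hy⟩ := h v
  obtain ⟨a, b, hab⟩ := norm_tensor_eq219 hp.degM r hr hrL (v.adicCompletion L) y
  exact ⟨a, b, by rw [← hab, hy]⟩

/-- the local hypothesis at an infinite place in the form `a² + 3b²`. -/
theorem n3_of_locNormInf219 (hp : IsQ3Pair438 L M) (x : L) (h : IsLocNormInf438 L M x)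
    (u : InfinitePlace L) :
    ∃ a b : u.Completion, a ^ 2 + 3 * b ^ 2 = algebraMap L u.Completion x := by
  obtain ⟨r, hr, hrL⟩ := exists_root219 hp
  obtain ⟨y, hy⟩ := h u
  obtain ⟨a, b, hab⟩ := norm_tensor_eq219 hp.degM r hr hrL u.Completion y
  exact ⟨a, b, by rw [← hab, hy]⟩

/-- **LOCAL-C at infinity.** -/
theorem localC_atInf219 (hp : IsQ3Pair438 L M) (d : ℤ) (δ : L) (hd : Squarefree d) (hd1 : d ≠ 1)
    (hδ : δ ^ 2 = (d : L)) (c : ℚ) (hc : c ≠ 0)
    (hinf : IsLocNormInf438 L M (algebraMap ℚ L c)) (hpos : 0 < d) : 0 < c := by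
  obtain ⟨u, hu⟩ := exists_real_place219 hp.degL d hd hd1 δ hδ hpos
  obtain ⟨a, b, hab⟩ := n3_of_locNormInf219 hp _ hinf u
  exact lt_of_le_of_ne (nonneg_of_n3_real219 u hu c a b hab) (Ne.symm hc)

/-- A split prime gives an embedding into `ℚ_p`. -/
theorem exists_padic_embedding219 (hp : IsQ3Pair438 L M) (d : ℤ) (δ : L) (hd : Squarefree d)
    (hd1 : d ≠ 1) (hδ : δ ^ 2 = (d : L)) (p : ℕ) [Fact p.Prime] (hs : Splits438 d p) :
    Nonempty (L →ₐ[ℚ] ℚ_[p]) := by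
  have hz : ∃ z : ℤ_[p], z ^ 2 = (d : ℤ_[p]) := by
    rcases hs with ⟨h2, h8⟩ | ⟨h2, hnd, hsq⟩
    · subst h2
      exact exists_padic_sqrt_two219 d h8
    · exact exists_padic_sqrt_odd219 p h2 d hnd hsq
  obtain ⟨z, hz⟩ := hz
  apply exists_algHom_of_sqrt219 hp.degL d hd hd1 δ hδ ℚ_[p] (z : ℚ_[p])
  have := congrArg (fun t : ℤ_[p] => (t : ℚ_[p])) hz
  simpa using this

/-- **LOCAL-C at the primes `p ≡ 2 mod 3`.** -/
theorem localC_atInert219 (hp : IsQ3Pair438 L M) (d : ℤ) (δ : L) (hd : Squarefree d)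
    (hd1 : d ≠ 1) (hδ : δ ^ 2 = (d : L)) (c : ℚ) (hc : c ≠ 0)
    (hfin : IsLocNormFin438 L M (algebraMap ℚ L c)) (p : ℕ) (hpp : p.Prime) (hp3 : p % 3 = 2)
    (hodd : Odd (padicValRat p c)) : ¬ Splits438 d p := by
  intro hs
  have : Fact p.Prime := ⟨hpp⟩
  obtain ⟨ψ⟩ := exists_padic_embedding219 hp d δ hd hd1 hδ p hs
  obtain ⟨a, b, hab⟩ := n3_of_locNormFin219 hp _ hfin (placeOf219 (ψ : L →+* ℚ_[p]))
  have := even_padicValRat_of_n3_219 hp3 (ψ : L →+* ℚ_[p]) c hc a b hab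
  exact (Int.not_even_iff_odd.mpr hodd) this

end Fermat.Agent.LT.T6.H219
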