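import Mathlib

/-!
# T6.00b (HasseNormQ3, cut of helper438): split places of a quadratic field (helper219)

`L` a quadratic number field, `δ ∈ L`, `δ² = d` (`d ≠ 1` squarefree), `p` a prime such that `d` is
a square in `ℤ_p`.  Then there is a height-one prime `v` of `𝓞 L` and a ring homomorphism
`φ : 𝓞 L →+* ZMod p` with kernel `v` such that `p ∉ v²`; the `v`-adic valuation of a rational
number `c ≠ 0` is `exp (- padicValRat p c)`.  Mathlib only.
-/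

set_option autoImplicit false

namespace Fermat.Agent.LT.T6.H219

open IsDedekindDomain HeightOneSpectrum WithZero NumberField Polynomial

/-! ### `δ` generates `L` -/

theorem int_eq_one_of_squarefree_of_isSquare219 {d : ℤ} (hd : Squarefree d) (h : IsSquare d) :
    d = 1 := by
  obtain ⟨m, rfl⟩ := h
  have hm : IsUnit m := hd m dvd_rfl
  rcases Int.isUnit_iff.mp hm with rfl | rfl <;> norm_num

theorem not_mem_range_of_sq219 {L : Type} [Field L] [CharZero L] (d : ℤ) (hd : Squarefree d)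
    (hd1 : d ≠ 1) (δ : L) (hδ : δ ^ 2 = (d : L)) :
    δ ∉ Set.range (algebraMap ℚ L) := by
  rintro ⟨q, rfl⟩
  apply hd1
  apply int_eq_one_of_squarefree_of_isSquare219 hd
  rw [← Rat.isSquare_intCast_iff]
  refine ⟨q, ?_⟩
  have : algebraMap ℚ L (q ^ 2) = algebraMap ℚ L (d : ℚ) := by
    rw [map_pow, hδ]; simp
  have := (algebraMap ℚ L).injective this
  rw [← this, pow_two]

theorem adjoin_eq_top219 {L : Type} [Field L] [NumberField L] (hdeg : Module.finrank ℚ L = 2)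
    (d : ℤ) (hd : Squarefree d) (hd1 : d ≠ 1) (δ : L) (hδ : δ ^ 2 = (d : L)) :
    IntermediateField.adjoin ℚ {δ} = ⊤ := by
  have hs := IntermediateField.isSimpleOrder_of_finrank_prime (F := ℚ) (E := L)
    (by rw [hdeg]; exact Nat.prime_two)
  rcases hs.eq_bot_or_eq_top (IntermediateField.adjoin ℚ {δ}) with h | h
  · exfalso
    rw [IntermediateField.adjoin_simple_eq_bot_iff, IntermediateField.mem_bot] at h
    exact not_mem_range_of_sq219 d hd hd1 δ hδ h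
  · exact h

/-- An embedding of `L` into any field extension of `ℚ` in which `d` is a square. -/
theorem exists_algHom_of_sqrt219 {L : Type} [Field L] [NumberField L]
    (hdeg : Module.finrank ℚ L = 2) (d : ℤ) (hd : Squarefree d) (hd1 : d ≠ 1) (δ : L)
    (hδ : δ ^ 2 = (d : L)) (E : Type*) [Field E] [Algebra ℚ E] (ρ : E) (hρ : ρ ^ 2 = (d : E)) :
    Nonempty (L →ₐ[ℚ] E) := by
  apply IntermediateField.nonempty_algHom_of_adjoin_splits (S := {δ}) _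
    (adjoin_eq_top219 hdeg d hd hd1 δ hδ)
  intro s hs
  rw [Set.mem_singleton_iff] at hs
  subst hs
  refine ⟨Algebra.IsIntegral.isIntegral s, ?_⟩
  have hdvd : minpoly ℚ s ∣ (X ^ 2 - C (d : ℚ)) := by
    apply minpoly.dvd
    simp [hδ]
  have hmap : ((X : ℚ[X]) ^ 2 - C (d : ℚ)).map (algebraMap ℚ E) = (X - C ρ) * (X + C ρ) := by
    simp only [Polynomial.map_sub, Polynomial.map_pow, Polynomial.map_X, map_intCast]
    have : (X - C ρ) * (X + C ρ) = X ^ 2 - C (ρ ^ 2) := by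
      rw [C_pow]; ring
    rw [this, hρ]
    simp
  have hne : ((X : ℚ[X]) ^ 2 - C (d : ℚ)).map (algebraMap ℚ E) ≠ 0 := by
    rw [hmap]
    exact mul_ne_zero (X_sub_C_ne_zero ρ) (X_add_C_ne_zero ρ)
  refine Splits.of_dvd ?_ hne (Polynomial.map_dvd _ hdvd)
  rw [hmap]
  exact (Splits.X_sub_C ρ).mul (Splits.X_add_C ρ)

/-! ### Square roots in `ℤ_p` (Hensel) -/

theorem aeval_sq_sub219 {p : ℕ} [Fact p.Prime] (d : ℤ) (a : ℤ_[p]) :
    (X ^ 2 - C d : ℤ[X]).aeval a = a ^ 2 - (d : ℤ_[p]) := by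
  simp

theorem aeval_deriv_sq_sub219 {p : ℕ} [Fact p.Prime] (d : ℤ) (a : ℤ_[p]) :
    (X ^ 2 - C d : ℤ[X]).derivative.aeval a = 2 * a := by
  simp
  exact Or.inl (map_ofNat _ 2)

theorem exists_padic_sqrt_two219 (d : ℤ) (h : d % 8 = 1) :
    ∃ z : ℤ_[2], z ^ 2 = (d : ℤ_[2]) := by
  have hn : ‖(X ^ 2 - C d : ℤ[X]).aeval (1 : ℤ_[2])‖
      < ‖(X ^ 2 - C d : ℤ[X]).derivative.aeval (1 : ℤ_[2])‖ ^ 2 := by
    rw [aeval_sq_sub219, aeval_deriv_sq_sub219]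
    have h8 : ((2 : ℕ) ^ 3 : ℤ) ∣ (1 - d) := by
      norm_num
      omega
    have h1 : ‖((1 - d : ℤ) : ℤ_[2])‖ ≤ (2 : ℝ) ^ (-(3 : ℕ) : ℤ) := by
      have := (PadicInt.norm_int_le_pow_iff_dvd (p := 2) (k := 1 - d) (n := 3)).mpr h8
      simpa using this
    have h2 : ‖(2 : ℤ_[2])‖ = (2 : ℝ)⁻¹ := by
      have := PadicInt.norm_p (p := 2)
      simpa using this
    have e : (1 : ℤ_[2]) ^ 2 - (d : ℤ_[2]) = ((1 - d : ℤ) : ℤ_[2]) := by push_cast; ring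
    rw [e, mul_one, h2]
    refine lt_of_le_of_lt h1 ?_
    norm_num
  obtain ⟨z, hz, -⟩ := hensels_lemma hn
  rw [aeval_sq_sub219] at hz
  exact ⟨z, sub_eq_zero.mp hz⟩

theorem exists_padic_sqrt_odd219 (p : ℕ) [Fact p.Prime] (hp2 : p ≠ 2) (d : ℤ)
    (hpd : ¬ (p : ℤ) ∣ d) (hsq : IsSquare ((d : ZMod p))) :
    ∃ z : ℤ_[p], z ^ 2 = (d : ℤ_[p]) := by
  obtain ⟨r, hr⟩ := hsq
  obtain ⟨r₀, rfl⟩ := ZMod.intCast_surjective r
  have hdvd : (p : ℤ) ∣ r₀ ^ 2 - d := by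
    rw [← ZMod.intCast_zmod_eq_zero_iff_dvd]
    push_cast
    rw [hr]; ring
  have hr₀ : ¬ (p : ℤ) ∣ r₀ := by
    intro h
    apply hpd
    have : (p : ℤ) ∣ r₀ ^ 2 := dvd_pow h (by norm_num)
    exact (dvd_sub_right this).mp hdvd
  have hp : Nat.Prime p := Fact.out
  have h2 : ¬ (p : ℤ) ∣ 2 * r₀ := by
    intro h
    rcases (Nat.prime_iff_prime_int.mp hp).dvd_or_dvd h with h | h
    · have : p ∣ 2 := by exact_mod_cast h
      exact hp2 ((Nat.prime_dvd_prime_iff_eq hp Nat.prime_two).mp this)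
    · exact hr₀ h
  have hn : ‖(X ^ 2 - C d : ℤ[X]).aeval (r₀ : ℤ_[p])‖
      < ‖(X ^ 2 - C d : ℤ[X]).derivative.aeval (r₀ : ℤ_[p])‖ ^ 2 := by
    rw [aeval_sq_sub219, aeval_deriv_sq_sub219]
    have e1 : (r₀ : ℤ_[p]) ^ 2 - (d : ℤ_[p]) = ((r₀ ^ 2 - d : ℤ) : ℤ_[p]) := by push_cast; ring
    have e2 : 2 * (r₀ : ℤ_[p]) = ((2 * r₀ : ℤ) : ℤ_[p]) := by push_cast; ring
    have n1 : ‖((r₀ ^ 2 - d : ℤ) : ℤ_[p])‖ < 1 := (PadicInt.norm_int_lt_one_iff_dvd _).mpr hdvd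
    have n2 : ‖((2 * r₀ : ℤ) : ℤ_[p])‖ = 1 := by
      rcases lt_or_eq_of_le (PadicInt.norm_le_one ((2 * r₀ : ℤ) : ℤ_[p])) with h | h
      · exact absurd ((PadicInt.norm_int_lt_one_iff_dvd _).mp h) h2
      · exact h
    rw [e1, e2, n2]
    simpa using n1
  obtain ⟨z, hz, -⟩ := hensels_lemma hn
  rw [aeval_sq_sub219] at hz
  exact ⟨z, sub_eq_zero.mp hz⟩

/-! ### The place of `L` attached to an embedding `L → ℚ_p` -/

section place

variable {L : Type} [Field L] [NumberField L] {p : ℕ} [Fact p.Prime] (ψ : L →+* ℚ_[p])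

omit [NumberField L] in
theorem norm_le_one_of_integral219 (α : 𝓞 L) : ‖ψ (α : L)‖ ≤ 1 := by
  have h1 : IsIntegral ℤ (α : L) := RingOfIntegers.isIntegral_coe α
  have h2 : IsIntegral ℤ (ψ (α : L)) := map_isIntegral_int ψ h1
  have h3 : IsIntegral ℤ_[p] (ψ (α : L)) := h2.tower_top
  obtain ⟨y, hy⟩ := IsIntegrallyClosed.isIntegral_iff.mp h3
  rw [← hy]
  exact y.2

/-- The induced homomorphism `𝓞 L → ℤ_p`. -/
noncomputable def toPadicInt219 : 𝓞 L →+* ℤ_[p] where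
  toFun α := ⟨ψ (α : L), norm_le_one_of_integral219 ψ α⟩
  map_one' := by apply Subtype.ext; simp
  map_mul' a b := by
    apply Subtype.ext
    show ψ ((a * b : 𝓞 L) : L) = ψ (a : L) * ψ (b : L)
    simp
  map_zero' := by apply Subtype.ext; simp
  map_add' a b := by
    apply Subtype.ext
    show ψ ((a + b : 𝓞 L) : L) = ψ (a : L) + ψ (b : L)
    simp

theorem toPadicInt219_coe (α : 𝓞 L) : ((toPadicInt219 ψ α : ℤ_[p]) : ℚ_[p]) = ψ (α : L) := rfl

/-- The induced homomorphism `𝓞 L → 𝔽_p`. -/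
noncomputable def toZModP219 : 𝓞 L →+* ZMod p :=
  PadicInt.toZMod.comp (toPadicInt219 ψ)

theorem natCast_p_ne_zero219 : ((p : ℕ) : 𝓞 L) ≠ 0 := by
  have hp : Nat.Prime p := Fact.out
  exact_mod_cast hp.ne_zero

theorem natCast_p_mem_ker219 : ((p : ℕ) : 𝓞 L) ∈ RingHom.ker (toZModP219 ψ) := by
  rw [RingHom.mem_ker, map_natCast]
  exact ZMod.natCast_self p

/-- The place of `L` cut out by `ψ`. -/
noncomputable def placeOf219 : HeightOneSpectrum (𝓞 L) where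
  asIdeal := RingHom.ker (toZModP219 ψ)
  isPrime := RingHom.ker_isPrime _
  ne_bot := fun h => natCast_p_ne_zero219 (L := L) (p := p) (by
    have := natCast_p_mem_ker219 ψ
    rw [h] at this
    exact this)

theorem placeOf219_asIdeal : (placeOf219 ψ).asIdeal = RingHom.ker (toZModP219 ψ) := rfl

theorem mem_placeOf219 (α : 𝓞 L) : α ∈ (placeOf219 ψ).asIdeal ↔ toZModP219 ψ α = 0 := by
  rw [placeOf219_asIdeal, RingHom.mem_ker]

theorem intCast_notMem_placeOf219 (n : ℤ) (hn : ¬ (p : ℤ) ∣ n) :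
    (n : 𝓞 L) ∉ (placeOf219 ψ).asIdeal := by
  rw [mem_placeOf219, map_intCast, ZMod.intCast_zmod_eq_zero_iff_dvd]
  exact hn

theorem sq_dvd_of_mem_sq219 (x : 𝓞 L) (hx : x ∈ (placeOf219 ψ).asIdeal ^ 2) :
    (p : ℤ_[p]) ^ 2 ∣ toPadicInt219 ψ x := by
  have hle : Ideal.map (toPadicInt219 ψ) ((placeOf219 ψ).asIdeal ^ 2)
      ≤ (IsLocalRing.maximalIdeal ℤ_[p]) ^ 2 := by
    rw [Ideal.map_pow]
    apply Ideal.pow_right_mono
    rw [Ideal.map_le_iff_le_comap]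
    intro y hy
    rw [Ideal.mem_comap, ← PadicInt.ker_toZMod, RingHom.mem_ker]
    exact (mem_placeOf219 ψ y).mp hy
  have := hle (Ideal.mem_map_of_mem _ hx)
  rw [PadicInt.maximalIdeal_eq_span_p, Ideal.span_singleton_pow,
    Ideal.mem_span_singleton] at this
  exact this

theorem natCast_p_notMem_sq219 : ((p : ℕ) : 𝓞 L) ∉ (placeOf219 ψ).asIdeal ^ 2 := by
  intro h
  have h1 := sq_dvd_of_mem_sq219 ψ _ h
  rw [map_natCast] at h1
  obtain ⟨t, ht⟩ := h1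
  have hp0 : (p : ℤ_[p]) ≠ 0 := by
    have hp : Nat.Prime p := Fact.out
    exact_mod_cast hp.ne_zero
  have h2 : (p : ℤ_[p]) * t = 1 := by
    apply mul_left_cancel₀ hp0
    rw [mul_one]
    calc (p : ℤ_[p]) * ((p : ℤ_[p]) * t) = (p : ℤ_[p]) ^ 2 * t := by ring
      _ = p := ht.symm
  exact PadicInt.p_nonunit (IsUnit.of_mul_eq_one _ h2)

theorem intValuation_p219 : (placeOf219 ψ).intValuation ((p : ℕ) : 𝓞 L) = exp (-1 : ℤ) := by
  have h1 : (placeOf219 ψ).intValuation ((p : ℕ) : 𝓞 L) ≤ exp (-((1 : ℕ) : ℤ)) := by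
    rw [intValuation_le_pow_iff_mem, pow_one]
    exact natCast_p_mem_ker219 ψ
  have h2 : ¬ (placeOf219 ψ).intValuation ((p : ℕ) : 𝓞 L) ≤ exp (-((2 : ℕ) : ℤ)) := by
    rw [intValuation_le_pow_iff_mem]
    exact natCast_p_notMem_sq219 ψ
  have h0 : (placeOf219 ψ).intValuation ((p : ℕ) : 𝓞 L) ≠ 0 :=
    intValuation_ne_zero _ _ (natCast_p_ne_zero219 (L := L) (p := p))
  obtain ⟨k, hk⟩ : ∃ k : ℤ, (placeOf219 ψ).intValuation ((p : ℕ) : 𝓞 L) = exp k :=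
    ⟨_, (exp_log h0).symm⟩
  rw [hk] at h1 h2 ⊢
  rw [exp_le_exp] at h1 h2
  congr 1
  push_cast at h1 h2
  omega

end place

end Fermat.Agent.LT.T6.H219
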